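/-
Tame inertia, finite level (helper10).  `R` a Dedekind domain with an action of a finite group `G`,
`P` a maximal ideal over the rational prime `q`.  A subgroup of the inertia group of `P` whose elements
have order prime to `q` is cyclic, and a Frobenius element `φ` acts on it by `φ σ φ⁻¹ = σ ^ q`
(`tame_finite`).

Method: the tame character `θ(σ) = σ π / π mod P` (`IsTameVal`), which is multiplicative,
independent of the uniformizer `π`, satisfies `θ(φ σ φ⁻¹) = θ(σ) ^ q`, and is injective on elements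
of order prime to `q`: if `σ` acts trivially on `R ⧸ P` and `P ⧸ P ^ 2` then `σ ^ (q ^ k) - 1`
maps `R` into `P ^ (k + 1)` (`ShiftsBy.pow_prime_pow`).
-/
import Mathlib

set_option autoImplicit false

namespace Fermat.Agent.TameInertia

section Shift

variable {R : Type*} [CommRing R] {G : Type*} [Group G] [MulSemiringAction G R]

/-- `σ - 1` maps `P ^ i` into `P ^ (i + c)` for all `i`. -/
def ShiftsBy (P : Ideal R) (σ : G) (c : ℕ) : Prop :=
  ∀ (i : ℕ) (x : R), x ∈ P ^ i → σ • x - x ∈ P ^ (i + c)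

theorem ShiftsBy.smul_mem {P : Ideal R} {σ : G} {c : ℕ} (h : ShiftsBy P σ c) {i : ℕ} {x : R}
    (hx : x ∈ P ^ i) : σ • x ∈ P ^ i := by
  have h1 := h i x hx
  have h2 : σ • x = (σ • x - x) + x := by ring
  rw [h2]
  exact (P ^ i).add_mem (Ideal.pow_le_pow_right (Nat.le_add_right i c) h1) hx

/-- An element acting trivially on `R ⧸ P` and on `P ⧸ P ^ 2` acts trivially on all
`P ^ i ⧸ P ^ (i + 1)`. -/
theorem shiftsBy_one (P : Ideal R) (σ : G) (h0 : ∀ x : R, σ • x - x ∈ P)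
    (h1 : ∀ x ∈ P, σ • x - x ∈ P ^ 2) : ShiftsBy P σ 1 := by
  intro i
  induction i with
  | zero =>
    intro x _
    rw [zero_add, pow_one]
    exact h0 x
  | succ i ih =>
    intro x hx
    rw [pow_succ] at hx
    refine Submodule.mul_induction_on hx ?_ ?_
    · intro a ha b hb
      have e : σ • (a * b) - a * b = (σ • a - a) * (σ • b) + a * (σ • b - b) := by
        rw [smul_mul']; ring
      rw [e]
      have hσb : σ • b ∈ P := by
        have := h0 b
        have h2 : σ • b = (σ • b - b) + b := by ring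
        rw [h2]
        exact P.add_mem this hb
      refine (P ^ (i + 1 + 1)).add_mem ?_ ?_
      · rw [pow_succ (n := i + 1)]
        exact Ideal.mul_mem_mul (ih a ha) hσb
      · have : P ^ (i + 1 + 1) = P ^ i * P ^ 2 := by rw [← pow_add]
        rw [this]
        exact Ideal.mul_mem_mul ha (h1 b hb)
    · intro y z hy hz
      have e : σ • (y + z) - (y + z) = (σ • y - y) + (σ • z - z) := by
        rw [smul_add]; ring
      rw [e]
      exact (P ^ (i + 1 + 1)).add_mem hy hz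

theorem ShiftsBy.pow {P : Ideal R} {σ : G} {c : ℕ} (h : ShiftsBy P σ c) (l : ℕ) :
    ShiftsBy P (σ ^ l) c := by
  induction l with
  | zero =>
    intro i x _
    rw [pow_zero, one_smul, sub_self]
    exact Submodule.zero_mem _
  | succ l ih =>
    intro i x hx
    have e : σ ^ (l + 1) • x - x = (σ ^ l • (σ • x) - σ • x) + (σ • x - x) := by
      rw [pow_succ, mul_smul]; ring
    rw [e]
    exact (P ^ (i + c)).add_mem (ih i _ (h.smul_mem hx)) (h i x hx)

theorem smul_pow_sub_eq_sum (σ : G) (x : R) (n : ℕ) :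
    σ ^ n • x - x = ∑ l ∈ Finset.range n, σ ^ l • (σ • x - x) := by
  induction n with
  | zero => simp
  | succ n ih =>
    rw [Finset.sum_range_succ, ← ih, smul_sub, ← mul_smul, ← pow_succ]
    ring

/-- If `σ` shifts by `c ≥ 1` and `q ∈ P`, then `σ ^ q` shifts by `c + 1`. -/
theorem ShiftsBy.pow_prime {P : Ideal R} {σ : G} {c : ℕ} (h : ShiftsBy P σ c) (hc : 1 ≤ c)
    (q : ℕ) (hqP : (q : R) ∈ P) : ShiftsBy P (σ ^ q) (c + 1) := by
  intro i x hx
  rw [smul_pow_sub_eq_sum]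
  set y := σ • x - x with hy
  have hyP : y ∈ P ^ (i + c) := h i x hx
  have e : ∑ l ∈ Finset.range q, σ ^ l • y =
      (q : R) * y + ∑ l ∈ Finset.range q, (σ ^ l • y - y) := by
    rw [Finset.sum_sub_distrib, Finset.sum_const, Finset.card_range, nsmul_eq_mul]
    ring
  rw [e]
  refine (P ^ (i + (c + 1))).add_mem ?_ ?_
  · have : P ^ (i + (c + 1)) = P * P ^ (i + c) := by
      rw [← pow_succ']
      congr 1
    rw [this]
    exact Ideal.mul_mem_mul hqP hyP
  · refine (P ^ (i + (c + 1))).sum_mem fun l _ => ?_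
    have := (h.pow l) (i + c) y hyP
    exact Ideal.pow_le_pow_right (by omega) this

theorem ShiftsBy.pow_prime_pow {P : Ideal R} {σ : G} (h : ShiftsBy P σ 1)
    (q : ℕ) (hqP : (q : R) ∈ P) (k : ℕ) : ShiftsBy P (σ ^ q ^ k) (k + 1) := by
  induction k with
  | zero => simpa using h
  | succ k ih =>
    rw [pow_succ, pow_mul]
    exact ih.pow_prime (by omega) q hqP

/-- **The wild part is a `q`-group**: an element of order prime to `q` acting trivially on
`R ⧸ P` and on `P ⧸ P ^ 2` acts trivially on `R`. -/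
theorem smul_eq_of_shiftsBy_one [IsDomain R] [IsNoetherianRing R] {P : Ideal R} (hP : P ≠ ⊤)
    {σ : G} (h : ShiftsBy P σ 1) (q : ℕ) (hqP : (q : R) ∈ P)
    (hcop : (orderOf σ).Coprime q) (hfin : 0 < orderOf σ) (x : R) : σ • x = x := by
  have hmem : ∀ j : ℕ, σ • x - x ∈ P ^ j := by
    intro j
    have hmod : q ^ (Nat.totient (orderOf σ) * j) ≡ 1 [MOD orderOf σ] := by
      rw [pow_mul]
      have := (Nat.ModEq.pow_totient hcop.symm).pow j
      rwa [one_pow] at this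
    have hσ : σ ^ q ^ (Nat.totient (orderOf σ) * j) = σ := by
      conv_rhs => rw [← pow_one σ]
      exact pow_eq_pow_iff_modEq.mpr hmod
    have h1 := (h.pow_prime_pow q hqP (Nat.totient (orderOf σ) * j)) 0 x
      (by rw [pow_zero, Ideal.one_eq_top]; exact Submodule.mem_top)
    rw [hσ, zero_add] at h1
    refine Ideal.pow_le_pow_right ?_ h1
    have : 1 ≤ Nat.totient (orderOf σ) := Nat.totient_pos.mpr hfin
    nlinarith
  have hbot : (⨅ j : ℕ, P ^ j) = ⊥ := Ideal.iInf_pow_eq_bot_of_isDomain P hP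
  have : σ • x - x ∈ (⨅ j : ℕ, P ^ j) := by
    rw [Ideal.mem_iInf]; exact hmem
  rw [hbot, Ideal.mem_bot, sub_eq_zero] at this
  exact this

end Shift

section Uniformizer

variable {R : Type*} [CommRing R]

/-- If `a * π ∈ P ^ 2` with `π ∉ P ^ 2` and `P` maximal, then `a ∈ P`. -/
theorem mem_of_mul_mem_sq {P : Ideal R} (hP : P.IsMaximal) {π : R} (hπ : π ∈ P)
    (hπ2 : π ∉ P ^ 2) {a : R} (h : a * π ∈ P ^ 2) : a ∈ P := by
  by_contra ha
  obtain ⟨r, p₀, hp₀, hr⟩ := hP.exists_inv ha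
  apply hπ2
  have e : π = r * (a * π) + p₀ * π := by
    calc π = (r * a + p₀) * π := by rw [hr, one_mul]
      _ = r * (a * π) + p₀ * π := by ring
  rw [e]
  refine (P ^ 2).add_mem ((P ^ 2).mul_mem_left r h) ?_
  rw [pow_two]
  exact Ideal.mul_mem_mul hp₀ hπ

/-- In a Dedekind domain, `P = (π) + P ^ 2` for `π ∈ P \ P ^ 2`. -/
theorem exists_sub_mul_mem_sq [IsDedekindDomain R] {P : Ideal R} (hP : P.IsMaximal)
    (hP0 : P ≠ ⊥) {π : R} (hπ : π ∈ P) (hπ2 : π ∉ P ^ 2) {x : R} (hx : x ∈ P) :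
    ∃ a : R, x - a * π ∈ P ^ 2 := by
  have hprime : Prime P := (Ideal.prime_iff_isPrime hP0).mpr hP.isPrime
  set J : Ideal R := Ideal.span {π} ⊔ P ^ 2 with hJ
  have hJP : J ≤ P := sup_le ((Ideal.span_singleton_le_iff_mem P).mpr hπ) (Ideal.pow_le_self two_ne_zero)
  have hdvd : J ∣ P ^ 2 := Ideal.dvd_iff_le.mpr le_sup_right
  obtain ⟨i, hi, hassoc⟩ := (dvd_prime_pow hprime 2).mp hdvd
  have hJeq : J = P ^ i := associated_iff_eq.mp hassoc
  have hJ' : J = P := by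
    interval_cases i
    · exfalso
      rw [pow_zero, Ideal.one_eq_top] at hJeq
      exact hP.ne_top (top_le_iff.mp (hJeq ▸ hJP))
    · rw [hJeq, pow_one]
    · exfalso
      apply hπ2
      rw [← hJeq]
      exact Ideal.mem_sup_left (Ideal.subset_span rfl)
  have hxJ : x ∈ J := hJ' ▸ hx
  obtain ⟨y, hy, z, hz, rfl⟩ := Submodule.mem_sup.mp hxJ
  obtain ⟨a, rfl⟩ := Ideal.mem_span_singleton'.mp hy
  refine ⟨a, ?_⟩
  rw [add_sub_cancel_left]
  exact hz

end Uniformizer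

section Char

variable {R : Type*} [CommRing R] {G : Type*} [Group G] [MulSemiringAction G R]

/-- `u` represents the value of the tame character of `σ` (w.r.t. the uniformizer `π`):
`σ π ≡ u π` modulo `P ^ 2`. -/
def IsTameVal (P : Ideal R) (π : R) (σ : G) (u : R) : Prop := σ • π - u * π ∈ P ^ 2

theorem smul_mem_of_inertia {P : Ideal R} {σ : G} (hσ : ∀ x : R, σ • x - x ∈ P) {x : R}
    (hx : x ∈ P) : σ • x ∈ P := by
  have h2 : σ • x = (σ • x - x) + x := by ring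
  rw [h2]
  exact P.add_mem (hσ x) hx

theorem smul_mem_sq_of_inertia {P : Ideal R} {σ : G} (hσ : ∀ x : R, σ • x - x ∈ P) {x : R}
    (hx : x ∈ P ^ 2) : σ • x ∈ P ^ 2 := by
  rw [pow_two] at hx ⊢
  refine Submodule.mul_induction_on hx ?_ ?_
  · intro a ha b hb
    rw [smul_mul']
    exact Ideal.mul_mem_mul (smul_mem_of_inertia hσ ha) (smul_mem_of_inertia hσ hb)
  · intro y z hy hz
    rw [smul_add]
    exact (P * P).add_mem hy hz

theorem isTameVal_one (P : Ideal R) (π : R) : IsTameVal P π (1 : G) 1 := by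
  unfold IsTameVal
  rw [one_smul, one_mul, sub_self]
  exact Submodule.zero_mem _

theorem IsTameVal.unique {P : Ideal R} (hP : P.IsMaximal) {π : R} (hπ : π ∈ P)
    (hπ2 : π ∉ P ^ 2) {σ : G} {u v : R} (hu : IsTameVal P π σ u) (hv : IsTameVal P π σ v) :
    u - v ∈ P := by
  apply mem_of_mul_mem_sq hP hπ hπ2
  have e : (u - v) * π = (σ • π - v * π) - (σ • π - u * π) := by ring
  rw [e]
  exact (P ^ 2).sub_mem hv hu

theorem exists_isTameVal [IsDedekindDomain R] {P : Ideal R} (hP : P.IsMaximal) (hP0 : P ≠ ⊥)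
    {π : R} (hπ : π ∈ P) (hπ2 : π ∉ P ^ 2) {σ : G} (hσ : ∀ x : R, σ • x - x ∈ P) :
    ∃ u : R, IsTameVal P π σ u :=
  exists_sub_mul_mem_sq hP hP0 hπ hπ2 (smul_mem_of_inertia hσ hπ)

/-- The tame character does not depend on the uniformizer: `σ x ≡ u x` mod `P ^ 2` for all
`x ∈ P`. -/
theorem IsTameVal.smul_sub_mul_mem [IsDedekindDomain R] {P : Ideal R} (hP : P.IsMaximal)
    (hP0 : P ≠ ⊥) {π : R} (hπ : π ∈ P) (hπ2 : π ∉ P ^ 2) {σ : G}
    (hσ : ∀ x : R, σ • x - x ∈ P) {u : R} (hu : IsTameVal P π σ u) {x : R} (hx : x ∈ P) :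
    σ • x - u * x ∈ P ^ 2 := by
  obtain ⟨a, ha⟩ := exists_sub_mul_mem_sq hP hP0 hπ hπ2 hx
  set b := x - a * π with hb
  have hx' : x = a * π + b := by rw [hb]; ring
  have e : σ • x - u * x = (σ • a - a) * (σ • π) + a * (σ • π - u * π) + (σ • b - u * b) := by
    rw [hx', smul_add, smul_mul']; ring
  rw [e]
  refine (P ^ 2).add_mem ((P ^ 2).add_mem ?_ ?_) ?_
  · rw [pow_two]
    exact Ideal.mul_mem_mul (hσ a) (smul_mem_of_inertia hσ hπ)
  · exact (P ^ 2).mul_mem_left a hu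
  · exact (P ^ 2).sub_mem (smul_mem_sq_of_inertia hσ ha) ((P ^ 2).mul_mem_left u ha)

theorem IsTameVal.mul [IsDedekindDomain R] {P : Ideal R} (hP : P.IsMaximal)
    (hP0 : P ≠ ⊥) {π : R} (hπ : π ∈ P) (hπ2 : π ∉ P ^ 2) {σ τ : G}
    (hσ : ∀ x : R, σ • x - x ∈ P) (hτ : ∀ x : R, τ • x - x ∈ P) {u v : R}
    (hu : IsTameVal P π σ u) (hv : IsTameVal P π τ v) : IsTameVal P π (σ * τ) (u * v) := by
  unfold IsTameVal
  have h1 := hu.smul_sub_mul_mem hP hP0 hπ hπ2 hσ (smul_mem_of_inertia hτ hπ)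
  have e : (σ * τ) • π - u * v * π = (σ • (τ • π) - u * (τ • π)) + u * (τ • π - v * π) := by
    rw [mul_smul]; ring
  rw [e]
  exact (P ^ 2).add_mem h1 ((P ^ 2).mul_mem_left u hv)

/-- Trivial tame character implies trivial action on `P ⧸ P ^ 2`. -/
theorem IsTameVal.shifts_of_sub_one_mem [IsDedekindDomain R] {P : Ideal R} (hP : P.IsMaximal)
    (hP0 : P ≠ ⊥) {π : R} (hπ : π ∈ P) (hπ2 : π ∉ P ^ 2) {σ : G}
    (hσ : ∀ x : R, σ • x - x ∈ P) {u : R} (hu : IsTameVal P π σ u) (hu1 : u - 1 ∈ P) :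
    ShiftsBy P σ 1 := by
  refine Fermat.Agent.TameInertia.shiftsBy_one P σ hσ fun x hx => ?_
  have h1 := hu.smul_sub_mul_mem hP hP0 hπ hπ2 hσ hx
  have e : σ • x - x = (σ • x - u * x) + (u - 1) * x := by ring
  rw [e]
  refine (P ^ 2).add_mem h1 ?_
  rw [pow_two]
  exact Ideal.mul_mem_mul hu1 hx

/-- **Frobenius relation for the tame character**: `θ(φ σ φ⁻¹) = θ(σ) ^ q`. -/
theorem IsTameVal.conj_frob [IsDedekindDomain R] {P : Ideal R} (hP : P.IsMaximal)
    (hP0 : P ≠ ⊥) {π : R} (hπ : π ∈ P) (hπ2 : π ∉ P ^ 2) {σ : G}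
    (hσ : ∀ x : R, σ • x - x ∈ P) {u : R} (hu : IsTameVal P π σ u)
    (q : ℕ) (hq : q ≠ 0) (φ : G) (hφ : ∀ x : R, φ • x - x ^ q ∈ P)
    (hφP : ∀ x : R, φ • x ∈ P → x ∈ P) :
    IsTameVal P π (φ * σ * φ⁻¹) (u ^ q) := by
  have hφmem : ∀ x ∈ P, φ • x ∈ P := by
    intro x hx
    have h2 : φ • x = (φ • x - x ^ q) + x ^ q := by ring
    rw [h2]
    exact P.add_mem (hφ x) (P.pow_mem_of_mem hx q (Nat.pos_of_ne_zero hq))
  have hφsq : ∀ x ∈ P ^ 2, φ • x ∈ P ^ 2 := by
    intro x hx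
    rw [pow_two] at hx ⊢
    refine Submodule.mul_induction_on hx ?_ ?_
    · intro a ha b hb
      rw [smul_mul']
      exact Ideal.mul_mem_mul (hφmem a ha) (hφmem b hb)
    · intro y z hy hz
      rw [smul_add]
      exact (P * P).add_mem hy hz
  have hπ' : φ⁻¹ • π ∈ P := hφP _ (by rw [smul_inv_smul]; exact hπ)
  have h1 := hu.smul_sub_mul_mem hP hP0 hπ hπ2 hσ hπ'
  have h2 := hφsq _ h1
  rw [smul_sub, smul_mul', smul_inv_smul] at h2
  unfold IsTameVal
  have e : (φ * σ * φ⁻¹) • π - u ^ q * π =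
      (φ • σ • φ⁻¹ • π - φ • u * π) + (φ • u - u ^ q) * π := by
    rw [mul_smul, mul_smul]; ring
  rw [e]
  refine (P ^ 2).add_mem h2 ?_
  rw [pow_two]
  exact Ideal.mul_mem_mul (hφ u) hπ

end Char


section Main

variable {R : Type*} [CommRing R] [IsDedekindDomain R] {G : Type*} [Group G] [Finite G]
  [MulSemiringAction G R] [FaithfulSMul G R]

/-- Two tame elements with the same tame character are equal. -/
theorem eq_of_isTameVal {P : Ideal R} (hP : P.IsMaximal) (hP0 : P ≠ ⊥)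
    {π : R} (hπ : π ∈ P) (hπ2 : π ∉ P ^ 2) (q : ℕ) (hqP : (q : R) ∈ P) {σ τ : G}
    (hσ : ∀ x : R, σ • x - x ∈ P) (hτ : ∀ x : R, τ • x - x ∈ P)
    (hcop : (orderOf (σ⁻¹ * τ)).Coprime q) {u v : R}
    (hu : IsTameVal P π σ u) (hv : IsTameVal P π τ v) (huv : u - v ∈ P) : σ = τ := by
  have hσ' : ∀ x : R, σ⁻¹ • x - x ∈ P := by
    intro x
    have h1 := hσ (σ⁻¹ • x)
    rw [smul_inv_smul] at h1
    have := P.neg_mem h1
    rwa [neg_sub] at this
  obtain ⟨w, hw⟩ := exists_isTameVal (G := G) hP hP0 hπ hπ2 hσ'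
  have h1 : IsTameVal P π (σ⁻¹ * σ) (w * u) := hw.mul hP hP0 hπ hπ2 hσ' hσ hu
  rw [inv_mul_cancel] at h1
  have hwu : w * u - 1 ∈ P := h1.unique hP hπ hπ2 (isTameVal_one P π)
  have hρ : ∀ x : R, (σ⁻¹ * τ) • x - x ∈ P := by
    intro x
    have e : (σ⁻¹ * τ) • x - x = (σ⁻¹ • (τ • x) - τ • x) + (τ • x - x) := by
      rw [mul_smul]; ring
    rw [e]
    exact P.add_mem (hσ' _) (hτ x)
  have h2 : IsTameVal P π (σ⁻¹ * τ) (w * v) := hw.mul hP hP0 hπ hπ2 hσ' hτ hv
  have hwv : w * v - 1 ∈ P := by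
    have e : w * v - 1 = (w * u - 1) - w * (u - v) := by ring
    rw [e]
    exact P.sub_mem hwu (P.mul_mem_left w huv)
  have hshift := h2.shifts_of_sub_one_mem hP hP0 hπ hπ2 hρ hwv
  have htriv : ∀ x : R, (σ⁻¹ * τ) • x = x :=
    smul_eq_of_shiftsBy_one hP.ne_top hshift q hqP hcop (orderOf_pos _)
  have h3 : σ⁻¹ * τ = 1 := by
    apply FaithfulSMul.eq_of_smul_eq_smul (α := R)
    intro x
    rw [htriv x, one_smul]
  calc σ = σ * (σ⁻¹ * τ) := by rw [h3, mul_one]
    _ = τ := by group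

/-- **Tame inertia, finite level**: a subgroup of the inertia group all of whose elements have
order prime to the residue characteristic is cyclic, and Frobenius acts on it by `σ ↦ σ ^ q`. -/
theorem tame_finite (P : Ideal R) (hP : P.IsMaximal) (hP0 : P ≠ ⊥) (q : ℕ) (hq : q.Prime)
    (hqP : (q : R) ∈ P) (Ibar : Subgroup G) (hI : ∀ σ ∈ Ibar, ∀ x : R, σ • x - x ∈ P)
    (hcop : ∀ σ ∈ Ibar, (orderOf σ).Coprime q) :
    IsCyclic Ibar ∧ ∀ φ : G, (∀ x : R, φ • x - x ^ q ∈ P) → (∀ x : R, φ • x ∈ P → x ∈ P) →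
      ∀ σ ∈ Ibar, φ * σ * φ⁻¹ ∈ Ibar → φ * σ * φ⁻¹ = σ ^ q := by
  obtain ⟨π, hπ, hπ2⟩ := SetLike.exists_of_lt (Ideal.pow_lt_self P hP0 hP.ne_top 2 le_rfl)
  have hPprime : P.IsPrime := hP.isPrime
  have hex : ∀ σ : Ibar, ∃ u : R, IsTameVal P π (σ : G) u :=
    fun σ => exists_isTameVal hP hP0 hπ hπ2 (hI σ σ.2)
  refine ⟨?_, ?_⟩
  · let θ : Ibar →* R ⧸ P :=
      { toFun := fun σ => Ideal.Quotient.mk P (hex σ).choose
        map_one' := by
          rw [← map_one (Ideal.Quotient.mk P), Ideal.Quotient.eq]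
          exact (hex 1).choose_spec.unique hP hπ hπ2 (isTameVal_one P π)
        map_mul' := by
          intro σ τ
          rw [← map_mul, Ideal.Quotient.eq]
          exact (hex (σ * τ)).choose_spec.unique hP hπ hπ2
            ((hex σ).choose_spec.mul hP hP0 hπ hπ2 (hI σ σ.2) (hI τ τ.2) (hex τ).choose_spec) }
    refine isCyclic_of_injective_ringHom θ ?_
    intro σ τ hστ
    have h1 : (hex σ).choose - (hex τ).choose ∈ P := Ideal.Quotient.eq.mp hστ
    apply Subtype.ext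
    exact eq_of_isTameVal hP hP0 hπ hπ2 q hqP (hI σ σ.2) (hI τ τ.2)
      (hcop _ (Ibar.mul_mem (Ibar.inv_mem σ.2) τ.2)) (hex σ).choose_spec (hex τ).choose_spec h1
  · intro φ hφ hφP σ hσ hconj
    obtain ⟨u, hu⟩ := hex ⟨σ, hσ⟩
    have h1 : IsTameVal P π (φ * σ * φ⁻¹) (u ^ q) :=
      hu.conj_frob hP hP0 hπ hπ2 (hI σ hσ) q hq.ne_zero φ hφ hφP
    have h2 : ∀ n : ℕ, IsTameVal P π (σ ^ n) (u ^ n) := by
      intro n
      induction n with
      | zero => simpa using isTameVal_one (G := G) P π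
      | succ n ih =>
        rw [pow_succ, pow_succ]
        exact ih.mul hP hP0 hπ hπ2 (hI _ (Ibar.pow_mem hσ n)) (hI σ hσ) hu
    exact eq_of_isTameVal hP hP0 hπ hπ2 q hqP (hI _ hconj) (hI _ (Ibar.pow_mem hσ q))
      (hcop _ (Ibar.mul_mem (Ibar.inv_mem hconj) (Ibar.pow_mem hσ q))) h1 (h2 q)
      (by rw [sub_self]; exact Submodule.zero_mem _)

end Main

end Fermat.Agent.TameInertia
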