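/-
Tame inertia in `Gal(ℚ̄/ℚ)` (helper10).  For a homomorphism `χ` of `Gal(ℚ̄/ℚ)` with open kernel and
a place `A` of `ℚ̄` above `q` such that `χ` maps the inertia group at `A` to elements of order prime
to `q` (e.g. into a `p`-group, `p ≠ q`): the image of inertia is cyclic and every Frobenius element
`φ` at `A` satisfies `χ (φ τ φ⁻¹) = χ τ ^ q` (`tame_inertia`).
-/
import Fermat.Agent.Lib.TameInertia.Finite
import Fermat.Agent.Lib.KFin.Inertia
import Fermat.Agent.Lib.Frobenius.Exists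

set_option autoImplicit false

namespace Fermat.Agent.TameInertia

open NumberField Fermat.Agent.FrobExists Fermat.Agent.KFin
open scoped Pointwise

attribute [local instance] isAlgebraic_Qb isAlgClosure_Qb

/-- Homomorphisms with the same kernel give the same orders. -/
theorem orderOf_eq_of_ker_eq {G H₁ H₂ : Type*} [Group G] [Group H₁] [Group H₂]
    (f : G →* H₁) (g : G →* H₂) (h : f.ker = g.ker) (x : G) :
    orderOf (f x) = orderOf (g x) := by
  rw [orderOf_eq_orderOf_iff]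
  intro n
  rw [← map_pow, ← map_pow, ← MonoidHom.mem_ker, ← MonoidHom.mem_ker, h]

/-- Homomorphisms with the same kernel identify the same elements. -/
theorem apply_eq_of_ker_eq {G H₁ H₂ : Type*} [Group G] [Group H₁] [Group H₂]
    (f : G →* H₁) (g : G →* H₂) (h : f.ker = g.ker) {x y : G} (hxy : f x = f y) :
    g x = g y := by
  have h1 : x⁻¹ * y ∈ f.ker := by
    rw [MonoidHom.mem_ker, map_mul, map_inv, hxy, inv_mul_cancel]
  rw [h, MonoidHom.mem_ker, map_mul, map_inv, inv_mul_eq_one] at h1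
  exact h1

/-- The Galois group of a number field acts faithfully on its ring of integers. -/
theorem faithfulSMul_ringOfIntegers (L : Type*) [Field L] [NumberField L] :
    FaithfulSMul (L ≃ₐ[ℚ] L) (𝓞 L) := by
  constructor
  intro σ τ h
  ext y
  obtain ⟨⟨x, n⟩, hn⟩ := IsLocalization.surj (nonZeroDivisors (𝓞 L)) y
  have hn0 : ((n : 𝓞 L) : L) ≠ 0 := by
    intro h0
    exact nonZeroDivisors.ne_zero n.2 (RingOfIntegers.coe_injective (h0.trans (map_zero _).symm))
  have hx := congrArg (fun z : 𝓞 L => (z : L)) (h x)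
  have hnn := congrArg (fun z : 𝓞 L => (z : L)) (h (n : 𝓞 L))
  simp only at hn
  have h1 : σ (y * ((n : 𝓞 L) : L)) = τ (y * ((n : 𝓞 L) : L)) := by
    rw [hn]; exact hx
  rw [map_mul, map_mul] at h1
  have h2 : σ ((n : 𝓞 L) : L) = τ ((n : 𝓞 L) : L) := hnn
  rw [h2] at h1
  have h3 : τ ((n : 𝓞 L) : L) ≠ 0 := by
    rw [Ne, map_eq_zero_iff τ τ.injective]; exact hn0
  exact mul_right_cancel₀ h3 h1


/-- A Frobenius element acts as `x ↦ x ^ q` modulo the maximal ideal. -/
theorem frob_sub_pow_mem_nonunits {K L : Type*} [Field K] [Field L] [Algebra K L]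
    (A : ValuationSubring L) (φ : L ≃ₐ[K] L) (q : ℕ) (hφ : A.IsFrobeniusAt φ q) {a : L}
    (ha : a ∈ A) : φ a - a ^ q ∈ A.nonunits := by
  have h1 := hφ.smul_residue_eq (IsLocalRing.residue A ⟨a, ha⟩)
  have h2 : IsLocalRing.residue A
      ((⟨φ, hφ.mem_decompositionSubgroup⟩ : A.decompositionSubgroup K) • (⟨a, ha⟩ : A) -
        ⟨a, ha⟩ ^ q) = 0 := by
    rw [map_sub, map_pow, sub_eq_zero]
    exact h1
  have h3 := (IsLocalRing.residue_eq_zero_iff _).mp h2
  exact (A.coe_mem_nonunits_iff).mpr h3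

/-- **Tame inertia**: let `χ` be a homomorphism from `Gal(ℚ̄/ℚ)` to a group, with open kernel,
and `A` a place of `ℚ̄` above `q` such that the image under `χ` of every element of the inertia
group at `A` has order prime to `q`.  Then the image of inertia is cyclic, and a Frobenius
element `φ` at `A` acts on it by `τ ↦ τ ^ q`. -/
theorem tame_inertia {H : Type*} [Group H] (χ : GQ →* H) (hopen : IsOpen (χ.ker : Set GQ))
    (q : ℕ) (hq : q.Prime) (A : ValuationSubring Qb) (hA : A.LiesOverPrime q)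
    (hcop : ∀ σ ∈ A.inertiaSubgroupIn ℚ, (orderOf (χ σ)).Coprime q) :
    (∃ τ₀ ∈ A.inertiaSubgroupIn ℚ, ∀ σ ∈ A.inertiaSubgroupIn ℚ, ∃ k : ℕ, χ σ = χ τ₀ ^ k) ∧
    ∀ φ : GQ, A.IsFrobeniusAt φ q → ∀ τ ∈ A.inertiaSubgroupIn ℚ,
      χ (φ * τ * φ⁻¹) = χ τ ^ q := by
  have hGal : IsGalois ℚ Qb := isGalois_Qb
  let N : ClosedSubgroup GQ :=
    { toSubgroup := χ.ker
      isClosed' := Subgroup.isClosed_of_isOpen _ hopen }
  let L : IntermediateField ℚ Qb := IntermediateField.fixedField χ.ker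
  have hfix : L.fixingSubgroup = χ.ker := InfiniteGalois.fixingSubgroup_fixedField N
  have hfin : FiniteDimensional ℚ L := by
    rw [← InfiniteGalois.isOpen_iff_finite, hfix]
    exact hopen
  have hgal : IsGalois ℚ L := by
    have hnormal : L.fixingSubgroup.Normal := by
      rw [hfix]
      infer_instance
    exact (InfiniteGalois.normal_iff_isGalois L).mp hnormal
  have hnf : NumberField L := { to_charZero := inferInstance, to_finiteDimensional := hfin }
  let r : GQ →* (L ≃ₐ[ℚ] L) := AlgEquiv.restrictNormalHom L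
  have hker : r.ker = χ.ker := by
    rw [← hfix]
    exact IntermediateField.restrictNormalHom_ker L
  have hfaith : FaithfulSMul (L ≃ₐ[ℚ] L) (𝓞 L) := faithfulSMul_ringOfIntegers L
  -- the prime of `𝓞 L` below `A`
  let ι : 𝓞 L →+* A :=
    { toFun := fun x => ⟨((x : L) : Qb), mem_valuationSubring_of_isIntegral A
        (x.isIntegral_coe.map (IsScalarTower.toAlgHom ℤ L Qb))⟩
      map_one' := rfl
      map_mul' := fun _ _ => rfl
      map_zero' := rfl
      map_add' := fun _ _ => rfl }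
  let P : Ideal (𝓞 L) := Ideal.comap ι (IsLocalRing.maximalIdeal A)
  have hPprime : P.IsPrime := Ideal.comap_isPrime _ _
  have hmemP : ∀ y : 𝓞 L, y ∈ P ↔ (((y : L) : Qb)) ∈ A.nonunits := by
    intro y
    rw [Ideal.mem_comap, ← ValuationSubring.coe_mem_nonunits_iff]
    rfl
  have hmemA : ∀ y : 𝓞 L, (((y : L) : Qb)) ∈ A := fun y => (ι y).2
  have hqP : ((q : ℕ) : 𝓞 L) ∈ P := by
    rw [hmemP]
    have : (((q : 𝓞 L) : L) : Qb) = (q : Qb) := by simp
    rw [this]
    exact hA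
  have hP0 : P ≠ ⊥ := by
    intro h
    rw [h, Ideal.mem_bot] at hqP
    exact hq.ne_zero (by exact_mod_cast hqP)
  have hPmax : P.IsMaximal := hPprime.isMaximal hP0
  -- the action of `r σ` on integers, in `ℚ̄`
  have hcoe : ∀ (σ : GQ) (x : 𝓞 L), ((((r σ) • x : 𝓞 L) : L) : Qb) = σ ((x : L) : Qb) := by
    intro σ x
    exact AlgEquiv.restrictNormal_commutes σ L (x : L)
  let Ibar : Subgroup (L ≃ₐ[ℚ] L) := (A.inertiaSubgroupIn ℚ).map r
  have hI : ∀ s ∈ Ibar, ∀ x : 𝓞 L, s • x - x ∈ P := by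
    rintro _ ⟨σ, hσ, rfl⟩ x
    rw [hmemP]
    have h1 := ((kf_mem_inertiaSubgroupIn_iff A σ).mp hσ).2 _ (hmemA x)
    rw [← hcoe σ x] at h1
    exact h1
  have hcopbar : ∀ s ∈ Ibar, (orderOf s).Coprime q := by
    rintro _ ⟨σ, hσ, rfl⟩
    rw [orderOf_eq_of_ker_eq r χ hker σ]
    exact hcop σ hσ
  obtain ⟨hcyc, hfrob⟩ := tame_finite P hPmax hP0 q hq hqP Ibar hI hcopbar
  refine ⟨?_, ?_⟩
  · obtain ⟨⟨g, hg⟩, hgen⟩ := hcyc.exists_generator
    obtain ⟨τ₀, hτ₀, rfl⟩ := hg
    refine ⟨τ₀, hτ₀, fun σ hσ => ?_⟩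
    have h1 := hgen ⟨r σ, σ, hσ, rfl⟩
    rw [← mem_powers_iff_mem_zpowers] at h1
    obtain ⟨k, hk⟩ := h1
    refine ⟨k, ?_⟩
    have h2 : r (τ₀ ^ k) = r σ := by
      rw [map_pow]
      exact congrArg Subtype.val hk
    rw [← map_pow]
    exact (apply_eq_of_ker_eq r χ hker h2).symm
  · intro φ hφ τ hτ
    have hφD : φ • A = A := hφ.mem_decompositionSubgroup
    have hφinv : φ⁻¹ • A = A := by
      conv_lhs => rw [← hφD]
      rw [inv_smul_smul]
    have h1 : ∀ x : 𝓞 L, (r φ) • x - x ^ q ∈ P := by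
      intro x
      rw [hmemP]
      have := frob_sub_pow_mem_nonunits A φ q hφ (hmemA x)
      rw [← hcoe φ x] at this
      exact this
    have h2 : ∀ x : 𝓞 L, (r φ) • x ∈ P → x ∈ P := by
      intro x hx
      rw [hmemP] at hx ⊢
      rw [hcoe φ x] at hx
      have := kf_smul_mem_nonunits A φ⁻¹ hx
      rw [hφinv] at this
      have e : φ⁻¹ (φ ((x : L) : Qb)) = ((x : L) : Qb) := by
        show φ.symm (φ _) = _
        simp
      rwa [e] at this
    have hconj : φ * τ * φ⁻¹ ∈ A.inertiaSubgroupIn ℚ := by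
      have := kf_conj_mem_inertiaSubgroupIn A φ τ hτ
      rwa [hφD] at this
    have h3 := hfrob (r φ) h1 h2 (r τ) ⟨τ, hτ, rfl⟩ (by
      refine ⟨φ * τ * φ⁻¹, hconj, ?_⟩
      rw [map_mul, map_mul, map_inv])
    have h4 : r (φ * τ * φ⁻¹) = r (τ ^ q) := by
      rw [map_mul, map_mul, map_inv, map_pow]
      exact h3
    rw [← map_pow]
    exact apply_eq_of_ker_eq r χ hker h4

end Fermat.Agent.TameInertia
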