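/-
Tame inertia for homomorphisms which are defined on a group `Γ` over `Gal(ℚ̄/ℚ)` only (helper10),
e.g. on a local Galois group or on a decomposition group.  Let `r : Γ →* Gal(ℚ̄/ℚ)` and
`χ : Γ →* H` be homomorphisms such that `χ γ = 1` whenever `r γ` fixes a finite Galois extension
`L` of `ℚ` (`χ` has level `L`; Galois is expressed by normality of the fixing subgroup), `A` a place of `ℚ̄` above `q`, and assume that `χ γ` has order
prime to `q` whenever `r γ` lies in the inertia group of `A`.  Then the image under `χ` of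
`r⁻¹(inertia)` is cyclic and `χ (φ τ φ⁻¹) = χ τ ^ q` whenever `r φ` is a Frobenius element at `A`
(`tame_inertia_hom`).  No assumption on the image of `r`.
-/
import Fermat.Agent.Lib.TameInertia.Hom
import Fermat.Agent.Lib.TameInertia.Main

set_option autoImplicit false

namespace Fermat.Agent.TameInertia

open NumberField Fermat.Agent.FrobExists Fermat.Agent.KFin
open scoped Pointwise

attribute [local instance] isAlgebraic_Qb isAlgClosure_Qb

/-- **Tame inertia for homomorphisms over `Gal(ℚ̄/ℚ)`.** -/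
theorem tame_inertia_hom {Γ H : Type*} [Group Γ] [Group H] (r : Γ →* GQ) (χ : Γ →* H)
    (L : IntermediateField ℚ Qb) (hfd : FiniteDimensional ℚ L) (hnor : L.fixingSubgroup.Normal)
    (hker : ∀ γ : Γ, r γ ∈ L.fixingSubgroup → χ γ = 1)
    (q : ℕ) (hq : q.Prime) (A : ValuationSubring Qb) (hA : A.LiesOverPrime q)
    (hcop : ∀ γ : Γ, r γ ∈ A.inertiaSubgroupIn ℚ → (orderOf (χ γ)).Coprime q) :
    (∃ τ₀ : Γ, r τ₀ ∈ A.inertiaSubgroupIn ℚ ∧
      ∀ γ : Γ, r γ ∈ A.inertiaSubgroupIn ℚ → ∃ n : ℕ, χ γ = χ τ₀ ^ n) ∧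
    ∀ φ : Γ, A.IsFrobeniusAt (r φ) q → ∀ τ : Γ, r τ ∈ A.inertiaSubgroupIn ℚ →
      χ (φ * τ * φ⁻¹) = χ τ ^ q := by
  have hGal : IsGalois ℚ Qb := isGalois_Qb
  have hgal : IsGalois ℚ L := (InfiniteGalois.normal_iff_isGalois L).mp hnor
  have hnormal : Normal ℚ L := inferInstance
  let rL : GQ →* (L ≃ₐ[ℚ] L) := AlgEquiv.restrictNormalHom L
  let r' : Γ →* (L ≃ₐ[ℚ] L) := rL.comp r
  have hkerL : rL.ker = L.fixingSubgroup :=
    @IntermediateField.restrictNormalHom_ker ℚ Qb _ _ _ L hnormal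
  have hker' : r'.ker ≤ χ.ker := by
    intro γ hγ
    rw [MonoidHom.mem_ker] at hγ ⊢
    apply hker
    rw [← hkerL, MonoidHom.mem_ker]
    exact hγ
  have hnf : NumberField L := { to_charZero := inferInstance, to_finiteDimensional := hfd }
  have hfaith : FaithfulSMul (L ≃ₐ[ℚ] L) (𝓞 L) := faithfulSMul_ringOfIntegers L
  -- the prime of `𝓞 L` below `A`
  let ι : 𝓞 L →+* A :=
    { toFun := fun x => ⟨((x : L) : Qb), mem_valuationSubring_of_isIntegral A
        (x.isIntegral_coe.map (IsScalarTower.toAlgHom ℤ L Qb))⟩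
      map_one' := rfl
      map_mul' := fun _ _ => rfl
      map_zero' := rfl
      map_add' := fun _ _ => rfl }
  let P : Ideal (𝓞 L) := Ideal.comap ι (IsLocalRing.maximalIdeal A)
  have hPprime : P.IsPrime := Ideal.comap_isPrime _ _
  have hmemP : ∀ y : 𝓞 L, y ∈ P ↔ (((y : L) : Qb)) ∈ A.nonunits := by
    intro y
    rw [Ideal.mem_comap, ← ValuationSubring.coe_mem_nonunits_iff]
    rfl
  have hmemA : ∀ y : 𝓞 L, (((y : L) : Qb)) ∈ A := fun y => (ι y).2
  have hqP : ((q : ℕ) : 𝓞 L) ∈ P := by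
    rw [hmemP]
    have : (((q : 𝓞 L) : L) : Qb) = (q : Qb) := by simp
    rw [this]
    exact hA
  have hP0 : P ≠ ⊥ := by
    intro h
    rw [h, Ideal.mem_bot] at hqP
    exact hq.ne_zero (by exact_mod_cast hqP)
  have hPmax : P.IsMaximal := hPprime.isMaximal hP0
  -- the action of `rL σ` on integers, in `ℚ̄`
  have hcoe : ∀ (σ : GQ) (x : 𝓞 L), ((((rL σ) • x : 𝓞 L) : L) : Qb) = σ ((x : L) : Qb) := by
    intro σ x
    exact AlgEquiv.restrictNormal_commutes σ L (x : L)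
  let J : Subgroup Γ := (A.inertiaSubgroupIn ℚ).comap r
  have hJ : ∀ γ ∈ J, ∀ x : 𝓞 L, r' γ • x - x ∈ P := by
    intro γ hγ x
    rw [hmemP]
    have h1 := ((kf_mem_inertiaSubgroupIn_iff A (r γ)).mp hγ).2 _ (hmemA x)
    rw [← hcoe (r γ) x] at h1
    exact h1
  have hcopJ : ∀ γ ∈ J, (orderOf (χ γ)).Coprime q := fun γ hγ => hcop γ hγ
  obtain ⟨hcyc, hfrob⟩ := tame_finite_hom r' χ hker' P hPmax hP0 q hq hqP J hJ hcopJ
  refine ⟨?_, ?_⟩
  · obtain ⟨τ₀, hτ₀, h⟩ := hcyc
    exact ⟨τ₀, hτ₀, fun γ hγ => h γ hγ⟩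
  · intro φ hφ τ hτ
    have hφD : r φ • A = A := hφ.mem_decompositionSubgroup
    have hφinv : (r φ)⁻¹ • A = A := by
      conv_lhs => rw [← hφD]
      rw [inv_smul_smul]
    have h1 : ∀ x : 𝓞 L, (r' φ) • x - x ^ q ∈ P := by
      intro x
      rw [hmemP]
      have := frob_sub_pow_mem_nonunits A (r φ) q hφ (hmemA x)
      rw [← hcoe (r φ) x] at this
      exact this
    have h2 : ∀ x : 𝓞 L, (r' φ) • x ∈ P → x ∈ P := by
      intro x hx
      rw [hmemP] at hx ⊢
      have hx' : r φ ((x : L) : Qb) ∈ A.nonunits := by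
        rw [← hcoe (r φ) x]
        exact hx
      have := kf_smul_mem_nonunits A (r φ)⁻¹ hx'
      rw [hφinv] at this
      have e : (r φ)⁻¹ (r φ ((x : L) : Qb)) = ((x : L) : Qb) := by
        show (r φ).symm (r φ _) = _
        simp
      rwa [e] at this
    have hconj : φ * τ * φ⁻¹ ∈ J := by
      show r (φ * τ * φ⁻¹) ∈ A.inertiaSubgroupIn ℚ
      have := kf_conj_mem_inertiaSubgroupIn A (r φ) (r τ) hτ
      rw [hφD] at this
      rwa [map_mul, map_mul, map_inv]
    exact hfrob φ h1 h2 τ hτ hconj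

end Fermat.Agent.TameInertia
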